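import Fermat.Statements.S17
import Mathlib.GroupTheory.Descent

/-!
# Program MW (statement S17): the contract

`Fermat.Agent.S17.MW N` is the Mordell-Weil group of `J_0(N)` over the rationals, i.e. the
Galois-fixed points of `JZero N`.  The frozen statement says that it is finitely generated.

The descent shape is Mathlib's `AddCommGroup.fg_of_descent`, for one prime `l`:

* strand W delivers `WeakMW N`: `MW N / l • MW N` is finite for every large prime `l`;
* strand H delivers `HeightDescent N`: for arbitrarily large primes `l` there is a function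
  `h : MW N → ℝ` with finite sublevel sets, an upper bound `h x ≤ a * h (g + x) + c g` and a
  lower bound `b * h x - c₀ ≤ h (l • x)` with `0 ≤ a < b`;
* strand D delivers `Divisible N` (used by strand W, and by strand H if it wants it).

`result_of_contract` proves the frozen statement from `WeakMW N` and `HeightDescent N`.
-/

set_option autoImplicit false

open ModularCurve AlgebraicCurve
open ModularCurve ModularCurve.JZero

namespace Fermat.Agent.S17

/-- The absolute Galois group of the rationals. -/
noncomputable abbrev GalQ : Type := (AlgebraicClosure ℚ) ≃ₐ[ℚ] (AlgebraicClosure ℚ)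

/-- The Mordell-Weil group of `J_0(N)`: the Galois-fixed points of `JZero N`. -/
noncomputable abbrev MW (N : ℕ) [NeZero N] : AddSubgroup (JZero N) :=
  FixedPoints.addSubgroup GalQ (JZero N)

/-- Strand D: `JZero N` is `l`-divisible for every large prime `l`. -/
def Divisible (N : ℕ) [NeZero N] : Prop :=
  ∃ L₀ : ℕ, ∀ l : ℕ, l.Prime → L₀ ≤ l → ∀ x : JZero N, ∃ y : JZero N, l • y = x

/-- Strand W: weak Mordell-Weil at every large prime `l`. -/
def WeakMW (N : ℕ) [NeZero N] : Prop :=
  ∃ L₀ : ℕ, ∀ l : ℕ, l.Prime → L₀ ≤ l →
    (nsmulAddMonoidHom (α := ↥(MW N)) l).range.FiniteIndex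

/-- A descent height on an additive group `G` for multiplication by `l`: finite sublevel sets,
an upper bound under translation and a lower bound under multiplication by `l`, with `a < b`. -/
structure IsDescentHeight {G : Type*} [AddCommGroup G] (l : ℕ) (h : G → ℝ) : Prop where
  northcott : ∀ B : ℝ, {x : G | h x ≤ B}.Finite
  bounds : ∃ (a b c₀ : ℝ) (c : G → ℝ), 0 ≤ a ∧ a < b ∧
    (∀ g x : G, h x ≤ a * h (g + x) + c g) ∧ (∀ x : G, b * h x - c₀ ≤ h (l • x))

/-- Strand H: for arbitrarily large primes `l` the group `MW N` has a descent height for `l`. -/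
def HeightDescent (N : ℕ) [NeZero N] : Prop :=
  ∀ L₀ : ℕ, ∃ l : ℕ, l.Prime ∧ L₀ ≤ l ∧ ∃ h : ↥(MW N) → ℝ, IsDescentHeight l h

/-- The descent theorem in the shape of the contract: a group `G` with `G / l • G` finite and a
descent height for `l` is finitely generated. -/
theorem fg_of_isDescentHeight {G : Type*} [AddCommGroup G] {l : ℕ} {h : G → ℝ}
    (hW : (nsmulAddMonoidHom (α := G) l).range.FiniteIndex) (hH : IsDescentHeight l h) :
    AddGroup.FG G := by
  obtain ⟨a, b, c₀, c, ha, hab, hup, hlow⟩ := hH.bounds
  have : Northcott h := ⟨hH.northcott⟩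
  exact AddCommGroup.fg_of_descent ha hab hW hup hlow

/-- The frozen statement S17 from the two top strands of the contract. -/
theorem result_of_contract (N : ℕ) [NeZero N] (hW : WeakMW N) (hH : HeightDescent N) :
    AddGroup.FG ↥(FixedPoints.addSubgroup ((AlgebraicClosure ℚ) ≃ₐ[ℚ] (AlgebraicClosure ℚ))
      (JZero N)) := by
  obtain ⟨L₀, hL₀⟩ := hW
  obtain ⟨l, hl, hle, h, hh⟩ := hH L₀
  exact fg_of_isDescentHeight (hL₀ l hl hle) hh

end Fermat.Agent.S17
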