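import Mathlib
import Fermat.Agent.S17.Contract

/-!
# S17 (PROGRAM MW, strand F): weaker entries into the contract

`Fermat/Agent/S17/Contract.lean` (the captain's contract of record) asks strand H for a descent
height with `a < b` at arbitrarily large primes `l`, and strand W for weak Mordell–Weil at every
large prime.  This file adds, WITHOUT changing that contract, the weakest forms in which the two
strands can deliver (all level-free group theory, proved here):

* `fg_of_descent_one_lt` : Mathlib's `AddCommGroup.fg_of_descent` with `a < b` weakened to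
  `1 < b` and ANY `a ≥ 0` (iterate `n ↦ n ^ k` until `b ^ k > a`; weak Mordell–Weil for `n ^ k`
  follows from the one for `n`: `finiteIndex_nsmul_pow`).
* `WeakAt N n`, `HeightExit N n` and `result_of_weakAt_heightExit` : the frozen S17 conclusion
  from weak Mordell–Weil for ONE `n` and a Northcott height with a translation bound (any
  constant) and ONE expansion bound `b * h x - c₀ ≤ h (n • x)`, `b > 1`.
* `heightExit_of_contraction` : the same in the contraction form `h y ≤ θ * h (n • y) + c₀`,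
  `0 < θ < 1`; `heightExit_of_translate` : translation bound as `h (x + g) ≤ a * h x + c g`.
* `isDescentHeight_of_parallelogram` : a Northcott function `h ≥ 0` with the quasi-parallelogram
  law is a descent height (in the sense of the contract) for EVERY `l ≥ 2`; hence
  `heightDescent_of_parallelogram : HeightDescent N`.
* `result_of_weakMW_heightExit` : mixed form (captain's `WeakMW N` + `HeightExit N l` for all
  large primes `l`).
-/

set_option autoImplicit false

open ModularCurve AlgebraicCurve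

namespace Fermat.Agent.S17.DescentShape

/-! ## Level-free group theory -/

section Abstract

variable {G : Type*} [AddCommGroup G]

/-- Weak Mordell–Weil for `m` and for `n` gives weak Mordell–Weil for `m * n`. -/
theorem finiteIndex_nsmul_mul {m n : ℕ}
    (hm : (nsmulAddMonoidHom (α := G) m).range.FiniteIndex)
    (hn : (nsmulAddMonoidHom (α := G) n).range.FiniteIndex) :
    (nsmulAddMonoidHom (α := G) (m * n)).range.FiniteIndex := by
  have hcomp : nsmulAddMonoidHom (α := G) (m * n)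
      = (nsmulAddMonoidHom (α := G) m).comp (nsmulAddMonoidHom (α := G) n) := by
    ext x
    simp only [nsmulAddMonoidHom_apply, AddMonoidHom.coe_comp, Function.comp_apply]
    rw [mul_comm, mul_nsmul]
  rw [hcomp, AddMonoidHom.range_comp]
  refine ⟨?_⟩
  rw [AddSubgroup.index_map]
  have h1 : ((nsmulAddMonoidHom (α := G) n).range ⊔ (nsmulAddMonoidHom (α := G) m).ker).index
      ≠ 0 := by
    have : ((nsmulAddMonoidHom (α := G) n).range
        ⊔ (nsmulAddMonoidHom (α := G) m).ker).FiniteIndex :=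
      AddSubgroup.finiteIndex_of_le (H := (nsmulAddMonoidHom (α := G) n).range) le_sup_left
    exact this.index_ne_zero
  exact Nat.mul_ne_zero h1 hm.index_ne_zero

/-- Weak Mordell–Weil for `n` gives weak Mordell–Weil for `n ^ k`. -/
theorem finiteIndex_nsmul_pow {n : ℕ}
    (hn : (nsmulAddMonoidHom (α := G) n).range.FiniteIndex) (k : ℕ) :
    (nsmulAddMonoidHom (α := G) (n ^ k)).range.FiniteIndex := by
  induction k with
  | zero =>
    have h1 : (nsmulAddMonoidHom (α := G) (n ^ 0)).range = ⊤ := by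
      rw [AddMonoidHom.range_eq_top]
      intro x
      exact ⟨x, by simp⟩
    rw [h1]
    infer_instance
  | succ k ih =>
    rw [pow_succ]
    exact finiteIndex_nsmul_mul ih hn

/-- Iterating the expansion inequality. -/
theorem expansion_iterate {h : G → ℝ} {n : ℕ} {b c₀ : ℝ} (hb : 1 < b)
    (H : ∀ x, b * h x - c₀ ≤ h (n • x)) (k : ℕ) :
    ∃ c : ℝ, ∀ x, b ^ k * h x - c ≤ h (n ^ k • x) := by
  induction k with
  | zero => exact ⟨0, fun x => by simp⟩
  | succ k ih =>
    obtain ⟨c, hc⟩ := ih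
    refine ⟨b * c + c₀, fun x => ?_⟩
    have h1 := H (n ^ k • x)
    have h2 := hc x
    have e : n ^ (k + 1) • x = n • (n ^ k • x) := by
      rw [pow_succ, mul_nsmul]
    rw [e]
    have h3 : b * (b ^ k * h x - c) ≤ b * h (n ^ k • x) :=
      mul_le_mul_of_nonneg_left h2 (by linarith)
    have e2 : b ^ (k + 1) * h x - (b * c + c₀) = b * (b ^ k * h x - c) - c₀ := by ring
    rw [e2]
    linarith

/-- **The weak descent shape.**  Mathlib's `AddCommGroup.fg_of_descent` with the hypothesis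
`a < b` weakened to `1 < b` (by iteration of the multiplication by `n`). -/
theorem fg_of_descent_one_lt {n : ℕ} {h : G → ℝ} {a b c₀ : ℝ} {c : G → ℝ}
    (ha : 0 ≤ a) (hb : 1 < b)
    (H₁ : (nsmulAddMonoidHom (α := G) n).range.FiniteIndex)
    (H₂ : ∀ g x, h x ≤ a * h (g + x) + c g) (H₃ : ∀ x, b * h x - c₀ ≤ h (n • x))
    (hN : ∀ B : ℝ, {x : G | h x ≤ B}.Finite) : AddGroup.FG G := by
  have : Northcott h := ⟨hN⟩
  obtain ⟨k, hk⟩ : ∃ k : ℕ, a < b ^ k := pow_unbounded_of_one_lt a hb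
  obtain ⟨c', hc'⟩ := expansion_iterate hb H₃ k
  exact AddCommGroup.fg_of_descent ha hk (finiteIndex_nsmul_pow H₁ k) H₂ hc'

/-- A quasi-quadratic function: `h (n • x) = n ^ 2 * h x + O_n(1)`. -/
theorem quasi_quadratic_nsmul {h : G → ℝ} {C : ℝ}
    (H : ∀ x y, |h (x + y) + h (x - y) - 2 * (h x + h y)| ≤ C) (n : ℕ) :
    ∃ D : ℝ, ∀ x, |h (n • x) - (n : ℝ) ^ 2 * h x| ≤ D ∧
      |h ((n + 1) • x) - ((n : ℝ) + 1) ^ 2 * h x| ≤ D := by
  induction n with
  | zero =>
    refine ⟨|h 0|, fun x => ⟨?_, ?_⟩⟩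
    · simp
    · simp
  | succ n ih =>
    obtain ⟨D, hD⟩ := ih
    refine ⟨2 * D + D + C, fun x => ?_⟩
    obtain ⟨h1, h2⟩ := hD x
    have hD0 : 0 ≤ D := le_trans (abs_nonneg _) h1
    have hC0 : 0 ≤ C := le_trans (abs_nonneg _) (H x x)
    have h3 := H ((n + 1) • x) x
    have e1 : (n + 1) • x + x = (n + 1 + 1) • x := by rw [succ_nsmul x (n + 1)]
    have e2 : (n + 1) • x - x = n • x := by rw [succ_nsmul x n]; abel
    rw [e1, e2] at h3
    refine ⟨?_, ?_⟩
    · have : ((n + 1 : ℕ) : ℝ) = (n : ℝ) + 1 := by push_cast; ring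
      rw [this]
      exact le_trans h2 (by linarith)
    · have hc : (((n + 1 : ℕ) : ℝ) + 1) ^ 2 * h x
          = 2 * (((n : ℝ) + 1) ^ 2 * h x) - (n : ℝ) ^ 2 * h x + 2 * h x := by
        push_cast; ring
      rw [hc]
      rw [abs_le] at h1 h2 h3 ⊢
      constructor <;> linarith [h1.1, h1.2, h2.1, h2.2, h3.1, h3.2]

end Abstract

/-! ## Entries into the contract -/

open Fermat.Agent.S17

/-- Weak Mordell–Weil for ONE multiplication `n`. -/
def WeakAt (N n : ℕ) [NeZero N] : Prop :=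
  (nsmulAddMonoidHom (α := ↥(MW N)) n).range.FiniteIndex

/-- The weakest height exit: a function on `MW N` with finite sublevel sets, a translation bound
with ANY constant `a ≥ 0` and ONE expansion bound for the multiplication by `n`, `b > 1`. -/
def HeightExit (N n : ℕ) [NeZero N] : Prop :=
  ∃ (h : ↥(MW N) → ℝ) (a b c₀ : ℝ) (c : ↥(MW N) → ℝ),
    0 ≤ a ∧ 1 < b ∧ (∀ B : ℝ, {x : ↥(MW N) | h x ≤ B}.Finite) ∧
    (∀ g x, h x ≤ a * h (g + x) + c g) ∧
    (∀ x, b * h x - c₀ ≤ h (n • x))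

/-- **The frozen S17 conclusion from weak Mordell–Weil for one `n` and the weak height exit for
the same `n`.** -/
theorem result_of_weakAt_heightExit (N : ℕ) [NeZero N] {n : ℕ} (hW : WeakAt N n)
    (hH : HeightExit N n) :
    AddGroup.FG ↥(FixedPoints.addSubgroup ((AlgebraicClosure ℚ) ≃ₐ[ℚ] (AlgebraicClosure ℚ))
      (JZero N)) := by
  obtain ⟨h, a, b, c₀, c, ha, hb, hN, H₂, H₃⟩ := hH
  exact fg_of_descent_one_lt (G := ↥(MW N)) ha hb hW H₂ H₃ hN

/-- Mixed form: the contract's `WeakMW N` and the weak height exit at all large primes. -/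
theorem result_of_weakMW_heightExit (N : ℕ) [NeZero N] (hW : WeakMW N)
    (hH : ∀ L₀ : ℕ, ∃ l : ℕ, l.Prime ∧ L₀ ≤ l ∧ HeightExit N l) :
    AddGroup.FG ↥(FixedPoints.addSubgroup ((AlgebraicClosure ℚ) ≃ₐ[ℚ] (AlgebraicClosure ℚ))
      (JZero N)) := by
  obtain ⟨L₀, hL₀⟩ := hW
  obtain ⟨l, hl, hle, hH'⟩ := hH L₀
  exact result_of_weakAt_heightExit N (hL₀ l hl hle) hH'

theorem weakAt_mul {N : ℕ} [NeZero N] {m n : ℕ} (hm : WeakAt N m) (hn : WeakAt N n) :
    WeakAt N (m * n) :=
  finiteIndex_nsmul_mul hm hn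

theorem weakAt_pow {N : ℕ} [NeZero N] {n : ℕ} (hn : WeakAt N n) (k : ℕ) : WeakAt N (n ^ k) :=
  finiteIndex_nsmul_pow hn k

/-- Weak Mordell–Weil from finiteness of the quotient `MW N / n MW N`. -/
theorem weakAt_of_finite_quotient {N : ℕ} [NeZero N] {n : ℕ}
    (h : Finite (↥(MW N) ⧸ (nsmulAddMonoidHom (α := ↥(MW N)) n).range)) : WeakAt N n :=
  AddSubgroup.finiteIndex_of_finite_quotient

/-- The height exit with the translation bound in the form `h (x + g) ≤ a * h x + c g`. -/
theorem heightExit_of_translate {N : ℕ} [NeZero N] {n : ℕ} (h : ↥(MW N) → ℝ) (a b c₀ : ℝ)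
    (c : ↥(MW N) → ℝ) (ha : 0 ≤ a) (hb : 1 < b)
    (hN : ∀ B : ℝ, {x : ↥(MW N) | h x ≤ B}.Finite)
    (H₂ : ∀ g x, h (x + g) ≤ a * h x + c g)
    (H₃ : ∀ x, b * h x - c₀ ≤ h (n • x)) : HeightExit N n := by
  refine ⟨h, a, b, c₀, fun g => c (-g), ha, hb, hN, fun g x => ?_, H₃⟩
  have := H₂ (-g) (g + x)
  rwa [add_comm g x, add_neg_cancel_right, add_comm x g] at this

/-- The height exit in the contraction form: `h y ≤ θ * h (n • y) + c₀` with `0 < θ < 1`. -/
theorem heightExit_of_contraction {N : ℕ} [NeZero N] {n : ℕ} (h : ↥(MW N) → ℝ) (a θ c₀ : ℝ)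
    (c : ↥(MW N) → ℝ) (ha : 0 ≤ a) (hθ0 : 0 < θ) (hθ1 : θ < 1)
    (hN : ∀ B : ℝ, {x : ↥(MW N) | h x ≤ B}.Finite)
    (H₂ : ∀ g x, h x ≤ a * h (g + x) + c g)
    (H₃ : ∀ y, h y ≤ θ * h (n • y) + c₀) : HeightExit N n := by
  refine ⟨h, a, θ⁻¹, θ⁻¹ * c₀, c, ha, ?_, hN, H₂, fun x => ?_⟩
  · exact (one_lt_inv₀ hθ0).mpr hθ1
  · have h1 := H₃ x
    have h2 : θ⁻¹ * h x ≤ θ⁻¹ * (θ * h (n • x) + c₀) :=
      mul_le_mul_of_nonneg_left h1 (inv_nonneg.mpr hθ0.le)
    have h3 : θ⁻¹ * (θ * h (n • x) + c₀) = h (n • x) + θ⁻¹ * c₀ := by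
      field_simp
    linarith

/-- A function `h ≥ 0` with finite sublevel sets and the quasi-parallelogram law is a descent
height, in the sense of the contract, for every `l ≥ 2`. -/
theorem isDescentHeight_of_parallelogram {G : Type*} [AddCommGroup G] {h : G → ℝ} {C : ℝ}
    (h0 : ∀ x, 0 ≤ h x) (hN : ∀ B : ℝ, {x : G | h x ≤ B}.Finite)
    (H : ∀ x y, |h (x + y) + h (x - y) - 2 * (h x + h y)| ≤ C) {l : ℕ} (hl : 2 ≤ l) :
    IsDescentHeight l h := by
  obtain ⟨D, hD⟩ := quasi_quadratic_nsmul H l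
  refine ⟨hN, 2, (l : ℝ) ^ 2, D, fun g => 2 * h (-g) + C, by norm_num, ?_, fun g x => ?_,
    fun x => ?_⟩
  · have : (2 : ℝ) ≤ (l : ℝ) := by exact_mod_cast hl
    nlinarith
  · have h1 := abs_le.mp (H (g + x) (-g))
    have e1 : g + x + -g = x := by abel
    have e2 : g + x - -g = g + x + g := by abel
    rw [e1, e2] at h1
    have := h0 (g + x + g)
    linarith [h1.1, h1.2]
  · have h1 := abs_le.mp (hD x).1
    linarith [h1.1, h1.2]

/-- Strand H in the parallelogram form delivers the contract's `HeightDescent N`. -/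
theorem heightDescent_of_parallelogram {N : ℕ} [NeZero N] (h : ↥(MW N) → ℝ) (C : ℝ)
    (h0 : ∀ x, 0 ≤ h x) (hN : ∀ B : ℝ, {x : ↥(MW N) | h x ≤ B}.Finite)
    (H : ∀ x y, |h (x + y) + h (x - y) - 2 * (h x + h y)| ≤ C) : HeightDescent N := by
  intro L₀
  obtain ⟨l, hle, hl⟩ := Nat.exists_infinite_primes (max L₀ 2)
  exact ⟨l, hl, le_trans (le_max_left _ _) hle, h,
    isDescentHeight_of_parallelogram h0 hN H (le_trans (le_max_right _ _) hle)⟩

end Fermat.Agent.S17.DescentShape
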